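import Fermat.Agent.S59.H139.Gub4
import Fermat.Agent.S59.LoSqC.H456.R3Std
import Fermat.Agent.S59.LoSqC.H193.LabelCount
import Fermat.Agent.S59.LoSqC.H140.CountNum

/-!
# S59 moonshot, cell (C) LO-SQ, W-COUNT: leaf NODE-DICT (helper865, OFF-MAIN)

The label calculus of helper193 / helper630 at level `M q` (`H193.lab1SurjAt_of_card`,
`H193.card_splitPure_le`, `H630.lab1SurjE_of_family630`) takes as INPUT a finite set `Sg` of
ideals of `chart R {x'}` (`x' = A2.Mod.xE E M q`) which is EXACTLY the set of the nodes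
(`H193.IsNodePt`: closed points of the special fibre through which both sheets `V∞`, `V₀` pass).
The node count GUB4 (helper139 + helper807 + helper550, `H139.Gub4.exists_finset_nodes`) is stated
in the R3 vocabulary (`H803.IsNode p₁ p₂ n` on `Bfin`, `p₁ p₂` the two cuts).

* `isNodePt_iff_isNode865`   : the dictionary `H193.IsNodePt ↔ H803.IsNode`;
* **`exists_nodes865`**      : for `Mod3.Std`, `5 ≤ q`: the finite set `Sg` of ALL nodes, with
                               `12 · #Sg ≤ (q - 1) ψ(M)`;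
* **`exists_nodes_count865`** : the same with the exponent inequality of the count
                               (helper140 `count_num140`): `4 g₀ + 2 (#Sg - 1) ≤ 2 g(q M)`,
                               i.e. `a + 2 h ≤ c` of `H505.count_family505` with `h = #Sg - 1`.
-/

set_option autoImplicit false
set_option linter.unusedSectionVars false
set_option linter.unusedVariables false
set_option linter.style.haveILetI false
set_option synthInstance.maxHeartbeats 400000
set_option maxHeartbeats 1600000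

noncomputable section

namespace Fermat.Agent.S59.LoSqC.H865

open ModularCurve Fermat.Agent.A2.Mod Fermat.Agent.S36.H803
open Fermat.Agent.S18.H138 (chart)
open Fermat.Agent

variable (P : ValuationSubring Qb) (E : IntermediateField ℚ Qb) (M q : ℕ) [NeZero M] [NeZero q]
  [NeZero (M * q)] (w : RE P E)

/-- **The dictionary** between the nodes of the label calculus (`H193.IsNodePt`) and the nodes
of the R3 vocabulary (`H803.IsNode`), given the two cuts in `nonunits` form
(`H456.exists_components_of_std`). -/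
theorem isNodePt_iff_isNode865
    (V₁ V₂ : ValuationSubring (FE E (M * q)))
    (hw₁ : algebraMap (RE P E) (FE E (M * q)) w ∈ V₁.nonunits)
    (p₁ p₂ : Ideal (Bfin P E M q))
    (hp₁ : ∀ b : Bfin P E M q, b ∈ p₁ ↔ (b : FE E (M * q)) ∈ V₁.nonunits)
    (hp₂ : ∀ b : Bfin P E M q, b ∈ p₂ ↔ (b : FE E (M * q)) ∈ V₂.nonunits)
    (n : Ideal (Bfin P E M q)) :
    H193.IsNodePt w (Bfin P E M q) V₁ V₂ n ↔ IsNode P E M q p₁ p₂ n := by
  constructor
  · rintro ⟨⟨hmax, -⟩, h₁, h₂⟩
    exact ⟨hmax, fun b hb => h₁ b ((hp₁ b).1 hb), fun b hb => h₂ b ((hp₂ b).1 hb)⟩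
  · rintro ⟨hmax, h₁, h₂⟩
    refine ⟨⟨hmax, ?_⟩, fun b hb => h₁ ((hp₁ b).2 hb), fun b hb => h₂ ((hp₂ b).2 hb)⟩
    exact h₁ ((hp₁ _).2 hw₁)

/-- **NODE-DICT.**  At a neat level `M q`, `5 ≤ q`, over an unramified good level: the nodes of
the finite chart (in the sense of the label calculus) form a finite set `Sg`, and
`12 · #Sg ≤ (q - 1) ψ(M)`. -/
theorem exists_nodes865 (hStd : S36.Mod3.Std P E M q w) (h5 : 5 ≤ q)
    (V : ValuationSubring (FE E (M * q))) (W : FE E (M * q) ≃ₐ[E] FE E (M * q))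
    (hV : IsVinf P E (M * q) V) (hW : IsFricke E (M * q) W) :
    ∃ Sg : Finset (Ideal (chart (RE P E) ({xE E M q} : Set (FE E (M * q))))),
      (∀ n, n ∈ Sg ↔ H193.IsNodePt w (chart (RE P E) ({xE E M q} : Set (FE E (M * q)))) V
        (V.comap (W : FE E (M * q) →+* FE E (M * q))) n) ∧
      12 * Sg.card ≤ (q - 1) * dedekindPsi M := by
  have hS := H456.setting_of_std P E M q w hStd
  haveI := hS.dvr
  obtain ⟨p₁, p₂, hcomp, hp₁, hp₂⟩ := H456.exists_components_of_std P E M q w hStd V W hV hW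
  obtain ⟨s, hs, hcard⟩ := Fermat.Agent.S59.H139.Gub4.exists_finset_nodes P E M q w
    (H456.r3Hyp_of_std P E M q w hStd) (H456.four_dvd_of_std P E M q w hStd (by omega)) h5
    p₁ p₂ hcomp
  have hu : Fermat.Agent.A2.H48.IsUnif V (cE P E (M * q) w) :=
    (H553.vinfBasic P E w (M * q) (NeZero.ne _) hS.dvr hS.unif V hV).1
  have hw₁ : algebraMap (RE P E) (FE E (M * q)) w ∈ V.nonunits := by
    rw [ValuationSubring.mem_nonunits_iff]
    exact hu.val_lt_one
  have key : ∃ Sg : Finset (Ideal (Bfin P E M q)),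
      (∀ n, n ∈ Sg ↔ H193.IsNodePt w (Bfin P E M q) V
        (V.comap (W : FE E (M * q) →+* FE E (M * q))) n) ∧
      12 * Sg.card ≤ (q - 1) * dedekindPsi M :=
    ⟨s, fun n => (hs n).trans (isNodePt_iff_isNode865 P E M q w V _ hw₁ p₁ p₂ hp₁ hp₂ n).symm,
      hcard⟩
  exact key

/-- **NODE-DICT with the exponent inequality of the count**: `a + 2 h ≤ c` with `a = 4 g₀`
(`g₀` the genus of the reduction of `X₀(M)` at `A`), `h = #Sg - 1`, `c = 2 g(q M)`. -/
theorem exists_nodes_count865 (hStd : S36.Mod3.Std P E M q w) (h5 : 5 ≤ q)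
    (V : ValuationSubring (FE E (M * q))) (W : FE E (M * q) ≃ₐ[E] FE E (M * q))
    (hV : IsVinf P E (M * q) V) (hW : IsFricke E (M * q) W)
    (A : ValuationSubring Qb) (hA : A.LiesOverPrime q) :
    ∃ Sg : Finset (Ideal (chart (RE P E) ({xE E M q} : Set (FE E (M * q))))),
      (∀ n, n ∈ Sg ↔ H193.IsNodePt w (chart (RE P E) ({xE E M q} : Set (FE E (M * q)))) V
        (V.comap (W : FE E (M * q) →+* FE E (M * q))) n) ∧
      12 * Sg.card ≤ (q - 1) * dedekindPsi M ∧
      4 * H140.gRes140 A M + 2 * (Sg.card - 1) ≤ 2 * H140.gBar140 (M * q) := by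
  obtain ⟨Sg, hSg, hcard⟩ := exists_nodes865 P E M q w hStd h5 V W hV hW
  refine ⟨Sg, hSg, hcard, ?_⟩
  haveI : NeZero (q * M) := ⟨by rw [Nat.mul_comm]; exact NeZero.ne _⟩
  haveI : Fact q.Prime := ⟨hStd.q_prime⟩
  obtain ⟨r, hr, hr12, -, hrM⟩ := hStd.neat.1
  have hgood := H140.goodLevel_of_neatFor140 hStd.q_prime hStd.neat
  have hrel := H140.genus_relation140 hStd.q_not_dvd hr hr12 hrM hgood A hA
  have hψ : 0 < dedekindPsi M := dedekindPsi_pos_of_ne_zero M (NeZero.ne M)
  have hq4 : 4 ≤ (q - 1) * dedekindPsi M := by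
    calc 4 = 4 * 1 := by norm_num
      _ ≤ (q - 1) * dedekindPsi M := Nat.mul_le_mul (by omega) hψ
  rw [H140.gBar_mul_comm140]
  omega

end Fermat.Agent.S59.LoSqC.H865

end
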