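import Fermat.Agent.S36.Mod3.Top

/-!
# S59 / cell (C) LO-SQ — glue leaf MODEL3-OBJ (helper865)

`Eng.Model3Statement` (S36, on main) quantifies the three valuation rings EXISTENTIALLY.  The
leaves of the cell (C) that live on `t`-expansions (W-SLOPE: Gauss valuations at `∞` and `0`;
W-PULL: the comap table) need the CONCRETE objects:  `V₁ = V∞`, `V₃ = V∞ ∘ W` (`W` = Fricke),
`V₁' = V∞`, `V₂' = V∞ ∘ W'` at level `M q`.  This file exposes them:

* `leafReg865 : Mod3.LeafReg`  (REG, unconditional: the chain of `Mod3.model3`);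
* `tripleCtx_of_objs` : for ALL objects `V₁' V₂' V₁ V₂ V₃ W' W` with `Mod3.Objs`, the concrete
  coordinates `x3E = j j_q j_{q²}`, `xE = j j_q` and the degeneracy maps `αE`, `βE` form an
  `Eng.TripleCtx`;
* `exists_objs_tripleCtx` : the objects exist (`Mod3.H370.leafObj`), together with the context.

No new mathematics: re-assembly of the leaves of `Mod3/Spec.lean` proved on main.
-/

set_option autoImplicit false

noncomputable section

namespace Fermat.Agent.S59.LoSqC.H865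

open Fermat.Agent.S36 Fermat.Agent.S36.Eng Fermat.Agent.S36.Mod3

/-- **REG**, unconditional (same plug as `Mod3.model3`). -/
theorem leafReg865 : LeafReg :=
  have hVT : LeafVT := Mod3.H370.leafVT
  have hTab : LeafTable := Mod3.H370.leafTable
  have hVal : LeafVal := Mod3.H370.leafVal
  have hSh : LeafSheet := Mod3.H985.leafSheet
  have hQep : LeafQep := Mod3.H27.leafQep_of_vt hVT
  have hNR : LeafNR := Mod3.H657.leafNR_of hVal hTab
  have hCh : LeafChart := Mod3.H189.leafChart_of hVT hTab hVal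
  have hInc : LeafInc := Mod3.H153.leafInc hTab hCh hQep hVal hSh hNR
  Mod3.H928.leafReg_of_regIOdd (fun P E M q _ _ _ w hStd V₁' V₂' V₁ V₂ V₃ W' W hO _ =>
    Mod3.H276.leafRegI_of hVal hSh hQep hInc hVT Mod3.H96.leafCuspCong96
      P E M q w hStd V₁' V₂' V₁ V₂ V₃ W' W hO)

/-- **MODEL3-OBJ.**  For ALL objects with `Mod3.Objs` (in particular `V₁ = V∞`, `V₃ = V∞ ∘ W`):
the three-component context at the concrete coordinates. -/
theorem tripleCtx_of_objs (P : ValuationSubring A2.Qb) (E : IntermediateField ℚ A2.Qb)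
    (M q : ℕ) [NeZero M] [NeZero q] [NeZero (M * q)] (w : A2.RE P E) (hS : Std P E M q w)
    (V₁' V₂' : ValuationSubring (A2.Mod.FE E (M * q)))
    (V₁ V₂ V₃ : ValuationSubring (A2.Mod.FE E (M * q * q)))
    (W' : A2.Mod.FE E (M * q) ≃ₐ[E] A2.Mod.FE E (M * q))
    (W : A2.Mod.FE E (M * q * q) ≃ₐ[E] A2.Mod.FE E (M * q * q))
    (hO : Objs P E M q V₁' V₂' V₁ V₂ V₃ W' W) :
    TripleCtx (R := A2.RE P E) (E := E) w q (A2.Mod.αE E (M * q) q) (A2.Mod.βE E (M * q) q)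
      (x3E E M q) (A2.Mod.xE E M q) V₁ V₂ V₃ V₁' V₂' :=
  have hVal : LeafVal := Mod3.H370.leafVal
  have hVT : LeafVT := Mod3.H370.leafVT
  have hTab : LeafTable := Mod3.H370.leafTable
  have hSh : LeafSheet := Mod3.H985.leafSheet
  have hQep : LeafQep := Mod3.H27.leafQep_of_vt hVT
  have hNor : LeafNormal := Mod3.H756.leafNormal_of hVT hVal hSh hTab
  have hNV : LeafNV := Mod3.H657.leafNV_of hVal hTab
  have hNR : LeafNR := Mod3.H657.leafNR_of hVal hTab
  have hCh : LeafChart := Mod3.H189.leafChart_of hVT hTab hVal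
  have hInc : LeafInc := Mod3.H153.leafInc hTab hCh hQep hVal hSh hNR
  have hUn : LeafUniq := Mod3.H153.leafUniq hTab hCh hQep hVal hSh hNR
  tripleCtx_of_parts (Mod3.H439.leafFF E M q hS.q_prime hS.q_not_dvd)
    (hVal P E M q w hS V₁' V₂' V₁ V₂ V₃ W' W hO)
    (hSh P E M q w hS V₁' V₂' V₁ V₂ V₃ W' W hO)
    (hQep P E M q w hS V₁' V₂' V₁ V₂ V₃ W' W hO)
    (hNor P E M q w hS V₁' V₂' V₁ V₂ V₃ W' W hO)
    (hInc P E M q w hS V₁' V₂' V₁ V₂ V₃ W' W hO)
    (leafReg865 P E M q w hS V₁' V₂' V₁ V₂ V₃ W' W hO)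
    (Mod3.H439.leafFin E M q hS.q_prime hS.q_not_dvd)
    (hTab P E M q w hS V₁' V₂' V₁ V₂ V₃ W' W hO)
    (hNV P E M q w hS V₁' V₂' V₁ V₂ V₃ W' W hO)
    (hNR P E M q w hS V₁' V₂' V₁ V₂ V₃ W' W hO)
    (hCh P E M q w hS V₁' V₂' V₁ V₂ V₃ W' W hO)
    (hUn P E M q w hS V₁' V₂' V₁ V₂ V₃ W' W hO)

/-- **MODEL3-OBJ, existence form.**  `Eng.Model3Statement` with the objects exposed. -/
theorem exists_objs_tripleCtx (P : ValuationSubring A2.Qb) (E : IntermediateField ℚ A2.Qb)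
    (M q : ℕ) [NeZero M] [NeZero q] [NeZero (M * q)]
    (hq : q.Prime) (hqM : ¬ q ∣ M) (hP : P.LiesOverPrime q) (hE : Unramified P E q)
    (hneat : NeatFor M q) (w : A2.RE P E) (hw : Irreducible w) :
    ∃ (V₁' V₂' : ValuationSubring (A2.Mod.FE E (M * q)))
      (V₁ V₂ V₃ : ValuationSubring (A2.Mod.FE E (M * q * q)))
      (W' : A2.Mod.FE E (M * q) ≃ₐ[E] A2.Mod.FE E (M * q))
      (W : A2.Mod.FE E (M * q * q) ≃ₐ[E] A2.Mod.FE E (M * q * q)),
      Objs P E M q V₁' V₂' V₁ V₂ V₃ W' W ∧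
      TripleCtx (R := A2.RE P E) (E := E) w q (A2.Mod.αE E (M * q) q)
        (A2.Mod.βE E (M * q) q) (x3E E M q) (A2.Mod.xE E M q) V₁ V₂ V₃ V₁' V₂' := by
  have hS : Std P E M q w :=
    { q_prime := hq, q_not_dvd := hqM, lies_over := hP, unram := hE, neat := hneat, unif := hw }
  obtain ⟨V₁', V₂', V₁, V₂, V₃, W', W, hO⟩ := Mod3.H370.leafObj P E M q w hS
  exact ⟨V₁', V₂', V₁, V₂, V₃, W', W, hO,
    tripleCtx_of_objs P E M q w hS V₁' V₂' V₁ V₂ V₃ W' W hO⟩

end Fermat.Agent.S59.LoSqC.H865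

end
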