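import Fermat.Agent.S59.LoSqC.Spec
import Fermat.Agent.S59.LoSqC.H865.Model3Objs

/-!
# S59 / cell (C) LO-SQ — leaf CTX (helper865)

`leafCtx865 : LoSqC.LeafCtx` (frozen in `S59/LoSqC/Spec.lean`, helper885), VERBATIM:
EVERY system of objects `Mod3.Objs` carries the three-component context `Eng.TripleCtx`
(= `tripleCtx_of_objs`, the assembly of the MOD3 leaves on main).
-/

set_option autoImplicit false

namespace Fermat.Agent.S59.LoSqC.H865

/-- **CTX (leaf)**, unconditional. -/
theorem leafCtx865 : Fermat.Agent.S59.LoSqC.LeafCtx :=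
  fun P E M q _ _ _ w hS V₁' V₂' V₁ V₂ V₃ W' W hO =>
    tripleCtx_of_objs P E M q w hS V₁' V₂' V₁ V₂ V₃ W' W hO

end Fermat.Agent.S59.LoSqC.H865
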